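import Fermat.Agent.JD3.Ring
import Fermat.Agent.AVC.Chart

/-!
# Base changes of smooth affine curves are Dedekind domains (S25, block D3), scheme level
-/

set_option autoImplicit false

noncomputable section

universe u

open CategoryTheory CategoryTheory.Limits AlgebraicGeometry
open Fermat.Agent.AVS Fermat.Agent.AVC
open scoped TensorProduct

namespace Fermat.Agent.JD3

variable {k : Type u} [Field k] {C : Scheme.{u}} (c : C ⟶ Spec (CommRingCat.of k))

theorem res_comp_kSec {U V : C.Opens} (h : V ≤ U) :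
    (C.presheaf.map (homOfLE h).op).hom.comp (kSec c U) = kSec c V := by
  unfold kSec
  rw [← CommRingCat.hom_comp]
  congr 1
  simp only [Category.assoc, ← Functor.map_comp]
  rfl

/-- sections over affine opens of a smooth scheme are locally standard smooth -/
theorem locStd_kSec (g : ℕ) [SmoothOfRelativeDimension g c] {W : C.Opens} (hW : IsAffineOpen W) :
    letI := (kSec c W).toAlgebra
    LocStd g k Γ(C, W) := by
  let _ := (kSec c W).toAlgebra
  intro q hq
  let ξ : C := hW.fromSpec.base (⟨q, hq⟩ : PrimeSpectrum Γ(C, W))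
  have hξ : ξ ∈ W := hW.opensRange_fromSpec ▸ ⟨_, rfl⟩
  obtain ⟨V, hV, hξV, hs⟩ := exists_chart c g ξ
  obtain ⟨f, g', hfg, hx⟩ := exists_basicOpen_le_affine_inter hW hV ξ ⟨hξ, hξV⟩
  refine ⟨f, ?_, ?_⟩
  · -- `ξ ∈ D(f)` means `f ∉ q`
    have h1 : (⟨q, hq⟩ : PrimeSpectrum Γ(C, W)) ∈ hW.fromSpec ⁻¹ᵁ C.basicOpen f := hx
    rw [hW.fromSpec_preimage_basicOpen] at h1
    exact h1
  · have hle : C.basicOpen f ≤ W := C.basicOpen_le f
    have hle' : C.basicOpen f ≤ V := hfg ▸ C.basicOpen_le g'
    let _ : Algebra k Γ(C, C.basicOpen f) := (kSec c (C.basicOpen f)).toAlgebra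
    let _ : Algebra Γ(C, W) Γ(C, C.basicOpen f) := (C.presheaf.map (homOfLE hle).op).hom.toAlgebra
    have t1 : IsScalarTower k Γ(C, W) Γ(C, C.basicOpen f) :=
      IsScalarTower.of_algebraMap_eq' (res_comp_kSec c hle).symm
    have l1 : IsLocalization.Away f Γ(C, C.basicOpen f) := hW.isLocalization_basicOpen f
    let _ : Algebra k Γ(C, V) := (kSec c V).toAlgebra
    let _ : Algebra Γ(C, V) Γ(C, C.basicOpen f) := (C.presheaf.map (homOfLE hle').op).hom.toAlgebra
    have t2 : IsScalarTower k Γ(C, V) Γ(C, C.basicOpen f) :=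
      IsScalarTower.of_algebraMap_eq' (res_comp_kSec c hle').symm
    have l2 : IsLocalization.Away g' Γ(C, C.basicOpen f) := by
      have := hV.isLocalization_of_eq_basicOpen g' (homOfLE hle') hfg
      exact this
    have s1 : Algebra.IsStandardSmoothOfRelativeDimension g k Γ(C, V) := hs
    have s2 : Algebra.IsStandardSmoothOfRelativeDimension 0 Γ(C, V) Γ(C, C.basicOpen f) :=
      Algebra.IsStandardSmoothOfRelativeDimension.localization_away g'
    have s3 : Algebra.IsStandardSmoothOfRelativeDimension (0 + g) k Γ(C, C.basicOpen f) :=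
      Algebra.IsStandardSmoothOfRelativeDimension.trans g 0 k Γ(C, V) Γ(C, C.basicOpen f)
    rw [zero_add] at s3
    let e : Γ(C, C.basicOpen f) ≃ₐ[k] Localization.Away f :=
      (IsLocalization.algEquiv (Submonoid.powers f) Γ(C, C.basicOpen f)
        (Localization.Away f)).restrictScalars k
    exact Algebra.IsStandardSmoothOfRelativeDimension.of_algEquiv g e

theorem finiteType_kSec [LocallyOfFiniteType c] {W : C.Opens} (hW : IsAffineOpen W) :
    (kSec c W).FiniteType := by
  have h1 : kSec c W = (c.appLE ⊤ W le_top).hom.comp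
      (Scheme.ΓSpecIso (CommRingCat.of k)).inv.hom := by
    rw [← CommRingCat.hom_comp]
    rfl
  rw [h1]
  refine RingHom.FiniteType.comp ?_ ?_
  · exact c.finiteType_appLE (isAffineOpen_top _) hW le_top
  · exact RingHom.FiniteType.of_surjective _
      (Scheme.ΓSpecIso (CommRingCat.of k)).symm.commRingCatIsoToRingEquiv.surjective

/-- block D3: `κ ⊗ Γ(C, W)` is a Dedekind domain for `W` affine open in a smooth integral curve
over an algebraically closed field `k`. -/
theorem dedekind_kSec [IsAlgClosed k] [IsIntegral C] [SmoothOfRelativeDimension 1 c]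
    [LocallyOfFiniteType c] {W : C.Opens} [Nonempty W] (hW : IsAffineOpen W)
    (κ : Type u) [Field κ] [Algebra k κ] :
    letI := (kSec c W).toAlgebra
    IsDomain (κ ⊗[k] Γ(C, W)) ∧ IsDedekindRing (κ ⊗[k] Γ(C, W)) := by
  let _ := (kSec c W).toAlgebra
  have h1 : IsDomain Γ(C, W) := inferInstance
  have h2 : Algebra.FiniteType k Γ(C, W) := finiteType_kSec c hW
  have h3 : LocStd 1 k Γ(C, W) := locStd_kSec c 1 hW
  have h4 : IsDedekindDomain (κ ⊗[k] Γ(C, W)) := isDedekindDomain_tensor h3
  exact ⟨inferInstance, inferInstance⟩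

end Fermat.Agent.JD3
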