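import Fermat.Agent.AVC.R
import Fermat.Agent.BaseChangeFF.Tensor

/-!
# Base changes of smooth affine curves are Dedekind domains (S25, block D3), ring level
-/

set_option autoImplicit false

noncomputable section

universe u

open scoped TensorProduct

namespace Fermat.Agent.JD3

/-- locally standard smooth of relative dimension `g` -/
def LocStd (g : ℕ) (K S : Type u) [Field K] [CommRing S] [Algebra K S] : Prop :=
  ∀ q : Ideal S, q.IsPrime → ∃ h : S, h ∉ q ∧
    Algebra.IsStandardSmoothOfRelativeDimension g K (Localization.Away h)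

theorem LocStd.of_algEquiv {g : ℕ} {K S S' : Type u} [Field K] [CommRing S] [Algebra K S]
    [CommRing S'] [Algebra K S'] (H : LocStd g K S) (e : S ≃ₐ[K] S') : LocStd g K S' := by
  intro q hq
  obtain ⟨h, hh, hs⟩ := H (q.comap e) inferInstance
  refine ⟨e h, hh, ?_⟩
  have h1 : Submonoid.map (e : S →* S') (Submonoid.powers h) = Submonoid.powers (e h) := by
    rw [Submonoid.map_powers]
    rfl
  let e' : Localization.Away h ≃ₐ[K] Localization.Away (e h) :=
    IsLocalization.algEquivOfAlgEquiv _ _ e h1
  exact Algebra.IsStandardSmoothOfRelativeDimension.of_algEquiv g e'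

section

variable {K S : Type u} [Field K] [CommRing S] [Algebra K S]

/-- local rings are valuation rings in relative dimension one -/
theorem LocStd.valuationRing (H : LocStd 1 K S) [IsDomain S] (q : Ideal S) [q.IsPrime] :
    ValuationRing (Localization.AtPrime q) := by
  obtain ⟨h, hh, hs⟩ := H q inferInstance
  let Sh := Localization.Away h
  have hdis : Disjoint (Submonoid.powers h : Set S) (q : Set S) := by
    rw [Ideal.disjoint_powers_iff_notMem _ (Ideal.IsPrime.isRadical inferInstance)]
    exact hh
  have hQ : (q.map (algebraMap S Sh)).IsPrime :=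
    IsLocalization.isPrime_of_isPrime_disjoint (Submonoid.powers h) Sh q inferInstance hdis
  have hQc : (q.map (algebraMap S Sh)).comap (algebraMap S Sh) = q :=
    IsLocalization.under_map_of_isPrime_disjoint (Submonoid.powers h) Sh inferInstance hdis
  have hh0 : h ≠ 0 := fun h0 => hh (h0 ▸ q.zero_mem)
  have hSh : IsDomain Sh :=
    IsLocalization.isDomain_localization (powers_le_nonZeroDivisors_of_noZeroDivisors hh0)
  have hv : ValuationRing (Localization.AtPrime (q.map (algebraMap S Sh))) :=
    Fermat.Agent.AVC.stdSmooth_valuationRing (K := K) (g := 1) _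
      (by rw [Nat.cast_one]; exact self_le_add_left _ _)
  have hloc : IsLocalization.AtPrime (Localization.AtPrime (q.map (algebraMap S Sh))) q := by
    have := IsLocalization.isLocalization_isLocalization_atPrime_isLocalization
      (Submonoid.powers h) (Localization.AtPrime (q.map (algebraMap S Sh)))
      (q.map (algebraMap S Sh))
    have e : ((q.map (algebraMap S Sh)).comap (algebraMap S Sh)).primeCompl = q.primeCompl := by
      ext x
      show x ∉ (q.map (algebraMap S Sh)).comap (algebraMap S Sh) ↔ x ∉ q
      rw [hQc]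
    unfold IsLocalization.AtPrime at this ⊢
    rwa [e] at this
  let e := IsLocalization.algEquiv q.primeCompl
    (Localization.AtPrime (q.map (algebraMap S Sh))) (Localization.AtPrime q)
  have : IsDomain (Localization.AtPrime q) :=
    IsLocalization.isDomain_localization (Ideal.primeCompl_le_nonZeroDivisors _)
  exact Function.Surjective.valuationRing e.toRingEquiv.toRingHom e.surjective

theorem LocStd.isDedekindDomain (H : LocStd 1 K S) [IsDomain S] [IsNoetherianRing S] :
    IsDedekindDomain S := by
  have h1 : IsDedekindDomainDvr S := by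
    refine { toIsNoetherian := inferInstance, is_dvr_at_nonzero_prime := fun P hP hPp => ?_ }
    have hv := H.valuationRing P
    have hn : IsNoetherianRing (Localization.AtPrime P) :=
      IsLocalization.isNoetherianRing P.primeCompl _ inferInstance
    have hpid : IsPrincipalIdealRing (Localization.AtPrime P) := inferInstance
    refine { not_a_field' := ?_ }
    intro h0
    apply hP
    rw [← Localization.AtPrime.map_eq_maximalIdeal, Ideal.map_eq_bot_iff_le_ker] at h0
    have h2 : Function.Injective (algebraMap S (Localization.AtPrime P)) :=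
      IsLocalization.injective _ P.primeCompl_le_nonZeroDivisors
    rw [(RingHom.injective_iff_ker_eq_bot _).mp h2] at h0
    exact le_bot_iff.mp h0
  infer_instance

end

section BaseChange

variable {k κ B : Type u} [Field k] [Field κ] [Algebra k κ] [CommRing B] [Algebra k B]

theorem LocStd.baseChange {g : ℕ} (H : LocStd g k B) : LocStd g κ (κ ⊗[k] B) := by
  intro Q hQ
  let i : B →ₐ[k] κ ⊗[k] B := Algebra.TensorProduct.includeRight
  obtain ⟨h, hh, hs⟩ := H (Q.comap i) inferInstance
  refine ⟨i h, hh, ?_⟩
  let Bh := Localization.Away h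
  let φ : κ ⊗[k] B →ₐ[κ] κ ⊗[k] Bh :=
    Algebra.TensorProduct.map (AlgHom.id κ κ) (IsScalarTower.toAlgHom k B Bh)
  let _ : Algebra (κ ⊗[k] B) (κ ⊗[k] Bh) := φ.toRingHom.toAlgebra
  have : IsScalarTower κ (κ ⊗[k] B) (κ ⊗[k] Bh) :=
    IsScalarTower.of_algebraMap_eq' φ.comp_algebraMap.symm
  have hl : IsLocalization ((Submonoid.powers h).map
      (Algebra.TensorProduct.includeRight (R := k) (A := κ))) (κ ⊗[k] Bh) := by
    refine IsLocalization.tensorProduct_tensorProduct_right k κ (Submonoid.powers h) Bh ?_
    ext b
    show φ (1 ⊗ₜ b) = 1 ⊗ₜ (algebraMap B Bh b)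
    simp [φ]
  have hl' : IsLocalization.Away (i h) (κ ⊗[k] Bh) := by
    unfold IsLocalization.Away
    rw [Submonoid.map_powers] at hl
    exact hl
  let e : κ ⊗[k] Bh ≃ₐ[κ] Localization.Away (i h) :=
    (IsLocalization.algEquiv (Submonoid.powers (i h)) (κ ⊗[k] Bh)
      (Localization.Away (i h))).restrictScalars κ
  have hs' : Algebra.IsStandardSmoothOfRelativeDimension g κ (κ ⊗[k] Bh) := inferInstance
  exact Algebra.IsStandardSmoothOfRelativeDimension.of_algEquiv g e

/-- over an algebraically closed field, base changes of domains are domains -/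
theorem isDomain_tensor_of_isAlgClosed [IsAlgClosed k] [IsDomain B] : IsDomain (κ ⊗[k] B) := by
  let F := FractionRing B
  have h1 : IsDomain (κ ⊗[k] F) := Fermat.Agent.BaseChangeFF.isDomain_tensor (k := k) (L := κ)
  let φ : κ ⊗[k] B →ₐ[κ] κ ⊗[k] F :=
    Algebra.TensorProduct.map (AlgHom.id κ κ) (IsScalarTower.toAlgHom k B F)
  have h2 : Function.Injective φ := by
    have h3 : Function.Injective ((IsScalarTower.toAlgHom k B F).toLinearMap.lTensor κ) :=
      Module.Flat.lTensor_preserves_injective_linearMap _ (IsFractionRing.injective B F)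
    exact h3
  exact h2.isDomain φ.toRingHom

theorem isDedekindDomain_tensor [IsAlgClosed k] [IsDomain B] [Algebra.FiniteType k B]
    (H : LocStd 1 k B) : IsDedekindDomain (κ ⊗[k] B) := by
  have : IsDomain (κ ⊗[k] B) := isDomain_tensor_of_isAlgClosed
  have : IsNoetherianRing (κ ⊗[k] B) := Algebra.FiniteType.isNoetherianRing κ _
  exact (H.baseChange (κ := κ)).isDedekindDomain

theorem dedekind_of_algEquiv [IsAlgClosed k] [IsDomain B] [Algebra.FiniteType k B]
    (H : LocStd 1 k B) {B' : Type u} [CommRing B'] [Algebra k B'] (e : B ≃ₐ[k] B')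
    (κ : Type u) [Field κ] [Algebra k κ] :
    IsDomain (κ ⊗[k] B') ∧ IsDedekindRing (κ ⊗[k] B') := by
  have h1 : IsDomain B' := e.symm.toMulEquiv.isDomain _
  have h2 : Algebra.FiniteType k B' := Algebra.FiniteType.equiv inferInstance e
  have h3 : IsDedekindDomain (κ ⊗[k] B') := isDedekindDomain_tensor (H.of_algEquiv e)
  exact ⟨inferInstance, inferInstance⟩

end BaseChange

end Fermat.Agent.JD3
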